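import Fermat.Agent.RT.Germ.SpecialPrime

/-!
# Dimension bounds for mixed local patterns at the scalar places

Each scalar place is special, unramified, or both at once; a quotient satisfying the relations
has dimension at most one more than three parameters per place, two where both hold, plus the
free coordinates.
-/

set_option autoImplicit false

noncomputable section

namespace Fermat.Agent.RT.Germ

open MvPowerSeries IsLocalRing Fermat.Agent.RT.Algebra

/-- The local condition at a scalar place. -/
inductive PlaceKind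
  | special
  | unramified
  | both
  deriving DecidableEq

variable {V ρ : Type*} {O : Type*} [CommRing O] (η : V → O) (kind : V → PlaceKind)

/-- The relations of a mixed pattern. -/
def placeRel (v : V) : Set (MvPowerSeries (Coord V ρ) O) :=
  match kind v with
  | .special => insert (conicRel η v) (Set.range (lineRel η v))
  | .unramified => Set.range fun j : Fin 3 => X (Sum.inl (v, 1, j))
  | .both => insert (conicRel η v) (Set.range fun j : Fin 3 => X (Sum.inl (v, 1, j)))

/-- The ideal of a mixed pattern. -/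
def mixedRel : Ideal (MvPowerSeries (Coord V ρ) O) := Ideal.span (⋃ v, placeRel η kind v)

/-- The indices of the parameters of a mixed pattern. -/
abbrev MixedIndex (ρ : Type*) := {p : V × Fin 3 // p.2 ≠ 2 ∨ kind p.1 ≠ .both} ⊕ ρ

variable (O) in
/-- The parameters of a place. -/
def mixedVal : MixedIndex kind ρ → MvPowerSeries (Coord V ρ) O
  | Sum.inl ⟨(v, k), _⟩ =>
      match kind v with
      | .special => paramVal (Sum.inl (v, k))
      | .unramified => X (Sum.inl (v, 0, k))
      | .both => ![X (Sum.inl (v, 0, 0)), X (Sum.inl (v, 0, 1)) + X (Sum.inl (v, 0, 2)), 0] k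
  | Sum.inr r => X (Sum.inr r)

theorem constantCoeff_mixedVal (i : MixedIndex kind ρ) :
    constantCoeff (mixedVal O kind i) = 0 := by
  obtain ⟨⟨v, k⟩, h⟩ | r := i
  · simp only [mixedVal]
    cases kind v <;> fin_cases k <;> simp [paramVal]
  · simp [mixedVal]

variable [Finite V] [Finite ρ]

/-- Each place of kind `both` uses one coordinate fewer. -/
theorem card_mixedIndex_add :
    Nat.card (MixedIndex kind ρ) + Nat.card {v // kind v = .both} = Nat.card (V × Fin 3 ⊕ ρ) := by
  classical
  let e : {v // kind v = .both} ≃ {p : V × Fin 3 // ¬(p.2 ≠ 2 ∨ kind p.1 ≠ .both)} :=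
    { toFun := fun v => ⟨(v.1, 2), by simp [v.2]⟩
      invFun := fun p => ⟨p.1.1, not_not.mp (not_or.mp p.2).2⟩
      left_inv := fun _ => rfl
      right_inv := fun p => Subtype.ext (Prod.ext rfl (not_not.mp (not_or.mp p.2).1).symm) }
  rw [MixedIndex, Nat.card_sum, Nat.card_sum, Nat.card_congr e, add_right_comm, ← Nat.card_sum,
    Nat.card_congr (Equiv.sumCompl _)]

variable [IsDomain O] [IsDiscreteValuationRing O] [IsAdicComplete (maximalIdeal O) O]
  [Finite (ResidueField O)]

/-- A quotient of a mixed pattern is finite over the series in its parameters. -/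
theorem finite_mixed (hη : ∀ v, η v ∈ maximalIdeal O)
    {J : Ideal (MvPowerSeries (Coord V ρ) O)} (hJ : mixedRel η kind ≤ J) :
    ((Ideal.Quotient.mk J).comp (substAlgHom (R := O)
      (hasSubst_of_constantCoeff_zero
          (constantCoeff_mixedVal kind (ρ := ρ)))).toRingHom).Finite := by
  classical
  have := Fintype.ofFinite V
  have := Fintype.ofFinite ρ
  have hsub : HasSubst (mixedVal O kind (ρ := ρ)) :=
    hasSubst_of_constantCoeff_zero (constantCoeff_mixedVal kind)
  set θ := (substAlgHom (R := O) hsub).toRingHom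
  have hθC : ∀ o, θ (C o) = C o := fun o => (substAlgHom (R := O) hsub).commutes o
  have hθX : ∀ i, θ (X i) = mixedVal O kind i := fun i => substAlgHom_X _ i
  have hCm : ∀ {τ : Type _} (o : O), o ∈ maximalIdeal O →
      (C o : MvPowerSeries τ O) ∈ maximalIdeal _ := fun o ho =>
    (IsLocalRing.mem_maximalIdeal _).mpr fun h => (IsLocalRing.mem_maximalIdeal _).mp ho (by
      simpa using MvPowerSeries.isUnit_iff_constantCoeff.mp h)
  refine (finite_of_params θ (fun a ha => ?_) (fun P hP hJP hθ => ?_)
    fun o ho => ⟨C o, hCm o ho, hθC o⟩)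
  · obtain ⟨g, hg⟩ := Ideal.mem_span_range_iff_exists_fun.mp (Patching.sub_C_mem_span_range_X a)
    have hc : constantCoeff a ∈ maximalIdeal O := (IsLocalRing.mem_maximalIdeal _).mpr fun h =>
      (IsLocalRing.mem_maximalIdeal a).mp ha (MvPowerSeries.isUnit_iff_constantCoeff.mpr h)
    rw [show a = ∑ i, g i * X i + C (constantCoeff a) by rw [hg]; ring, map_add, map_sum, hθC]
    refine add_mem (sum_mem fun i _ => ?_) (hCm _ hc)
    rw [map_mul, hθX]
    exact Ideal.mul_mem_left _ _ ((IsLocalRing.mem_maximalIdeal _).mpr fun hu => by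
      simpa [constantCoeff_mixedVal] using MvPowerSeries.isUnit_iff_constantCoeff.mp hu)
  -- It is enough that a prime containing the relations and the parameters contains every
  -- coordinate, which is checked on the three kinds of place.
  have hX : ∀ i, mixedVal O kind (ρ := ρ) i ∈ P := fun i =>
    hθX i ▸ hθ _ (span_X_le_maximalIdeal (Ideal.subset_span ⟨i, rfl⟩))
  rintro (⟨v, i, j⟩ | r)
  swap
  · exact hX (Sum.inr r)
  let q := Ideal.Quotient.mk P
  have hq : ∀ f, f ∈ P → q f = 0 := fun f hf => Ideal.Quotient.eq_zero_iff_mem.mpr hf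
  have hr : ∀ f ∈ placeRel η kind v, q f = 0 := fun f hf =>
    hq f (hJP (hJ (Ideal.subset_span (Set.mem_iUnion.mpr ⟨v, hf⟩))))
  have hCη : q (C (η v)) = 0 := hq _ (hθC (η v) ▸ hθ _ (hCm _ (hη v)))
  have hp : ∀ k, (k ≠ 2 ∨ kind v ≠ .both) → ∀ z, mixedVal O kind
      (Sum.inl ⟨(v, k), z⟩) (ρ := ρ) ∈ P := fun k _ z => hX _
  set w := q (X (Sum.inl (v, 0, 0))) with hw'
  set x := q (X (Sum.inl (v, 0, 1))) with hx'
  set y := q (X (Sum.inl (v, 0, 2))) with hy'
  rw [← Ideal.Quotient.eq_zero_iff_mem]
  cases hk : kind v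
  · have hn : ∀ k : Fin 3, k ≠ 2 ∨ kind v ≠ .both := fun k => Or.inr (by simp [hk])
    have p0 := hq _ (hp 0 (hn 0) (hn 0))
    have p1 := hq _ (hp 1 (hn 1) (hn 1))
    have p2 := hq _ (hp 2 (hn 2) (hn 2))
    simp only [mixedVal, hk, paramVal, Matrix.cons_val, map_add] at p0 p1 p2
    have hl : ∀ k, q (lineRel η v k) = 0 := fun k =>
      hr _ (by simp [placeRel, hk])
    have hcon := hr (conicRel η v) (by simp [placeRel, hk])
    have h0 := hl 0
    have h3 := hl 3
    simp only [lineRel, lineEq, Matrix.cons_val, map_add, map_sub, map_mul, hCη] at h0 h3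
    simp only [conicRel, map_sub, map_add, map_pow, map_mul, hCη] at hcon
    rw [p0] at h0 h3
    have hx : x = 0 := mul_self_eq_zero.mp (by linear_combination x * p2 - h0)
    have hy : y = 0 := mul_self_eq_zero.mp (by linear_combination y * p1 - h3)
    have hw : w = 0 := mul_self_eq_zero.mp (by linear_combination hcon - y * hx)
    have hb : q (X (Sum.inl (v, 1, 1))) = 0 := by linear_combination p1 - hy
    have he : q (X (Sum.inl (v, 1, 2))) = 0 := by linear_combination p2 - hx
    fin_cases i <;> fin_cases j <;> assumption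
  · have h1 : ∀ k, q (X (Sum.inl (v, 1, k))) = 0 := fun k => hr _ (by simp [placeRel, hk])
    have h0 : ∀ k, q (X (Sum.inl (v, 0, k))) = 0 := fun k => by
      simpa [mixedVal, hk] using hq _ (hp k (Or.inr (by simp [hk])) (Or.inr (by simp [hk])))
    fin_cases i
    exacts [h0 j, h1 j]
  · have h1 : ∀ k, q (X (Sum.inl (v, 1, k))) = 0 := fun k => hr _ (by simp [placeRel, hk])
    have p0 := hq _ (hp 0 (Or.inl (by decide)) (Or.inl (show (0 : Fin 3) ≠ 2 by decide)))
    have p1 := hq _ (hp 1 (Or.inl (by decide)) (Or.inl (show (1 : Fin 3) ≠ 2 by decide)))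
    simp only [mixedVal, hk, Matrix.cons_val, map_add] at p0 p1
    have hcon := hr (conicRel η v) (by simp [placeRel, hk])
    simp only [conicRel, map_sub, map_add, map_pow, map_mul, hCη] at hcon
    have hw : w = 0 := p0
    have hy : y = 0 := mul_self_eq_zero.mp (by linear_combination y * p1 + w * hw - hcon)
    have hx : x = 0 := by linear_combination p1 - hy
    fin_cases i
    · fin_cases j <;> assumption
    · exact h1 j

/-- **The bound**: a quotient of a mixed pattern has dimension at most one more than the number of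
its parameters. -/
theorem ringKrullDim_quotient_le_mixed (hη : ∀ v, η v ∈ maximalIdeal O)
    {J : Ideal (MvPowerSeries (Coord V ρ) O)} (hJ : mixedRel η kind ≤ J) :
    ringKrullDim (MvPowerSeries (Coord V ρ) O ⧸ J) ≤
      ((Nat.card (MixedIndex kind ρ) + 1 : ℕ) : WithBot ℕ∞) := by
  rw [← ringKrullDim_mvPowerSeries (O := O) (MixedIndex kind ρ)]
  exact ringKrullDim_le_of_params _ (finite_mixed η kind hη hJ)

/-- The dimension drops in a quotient containing a nonzero constant. -/
theorem ringKrullDim_quotient_lt_mixed (hη : ∀ v, η v ∈ maximalIdeal O)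
    {J : Ideal (MvPowerSeries (Coord V ρ) O)} (hJ : mixedRel η kind ≤ J) {a : O} (ha : a ≠ 0)
    (haJ : (C a : MvPowerSeries (Coord V ρ) O) ∈ J) :
    ringKrullDim (MvPowerSeries (Coord V ρ) O ⧸ J) <
      ((Nat.card (MixedIndex kind ρ) + 1 : ℕ) : WithBot ℕ∞) := by
  rw [← ringKrullDim_mvPowerSeries (O := O) (MixedIndex kind ρ)]
  by_contra hlt
  have hbot := comap_eq_bot_of_ringKrullDim_le _ (finite_mixed η kind hη hJ) (not_lt.mp hlt)
  have hmem : (C a : MvPowerSeries (MixedIndex kind ρ) O) ∈ J.comap (substAlgHom (R := O)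
      (hasSubst_of_constantCoeff_zero (constantCoeff_mixedVal kind (ρ := ρ)))).toRingHom := by
    rw [Ideal.mem_comap]
    have e := (substAlgHom (R := O) (hasSubst_of_constantCoeff_zero
      (constantCoeff_mixedVal (O := O) kind (ρ := ρ)))).commutes a
    exact (congrArg (· ∈ J) e).mpr haJ
  rw [hbot, Ideal.mem_bot] at hmem
  exact ha (by simpa using congrArg constantCoeff hmem)

end Fermat.Agent.RT.Germ
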