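import Fermat.Agent.RT.Germ.Conic
import Mathlib.RingTheory.Henselian
import Mathlib.RingTheory.RegularLocalRing.Defs
import Mathlib.RingTheory.SimpleRing.Principal

/-!
# The germ ideal of the product of the local relations

`germIdeal` is the kernel of the expansion at the diagonal point. It is prime and contains the
relations. When `‖2‖ = 1` and the `δ v` are nonzero it vanishes at every point satisfying them,
and is contained in the ideal of series whose coefficients at monomials free of `a, b, e` are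
small.

See `ev_eq_zero_of_mem_germIdeal` and `norm_coeff_lt_one_of_mem_germIdeal`.
-/

set_option autoImplicit false

noncomputable section

namespace Fermat.Agent.RT.Germ

open MvPowerSeries

/-! ## The relations and the germ ideal -/

/-- Coordinates: `(v, 0, ·) = (a, b, e)`, `(v, 1, ·) = (s, t, r)` and further free ones. -/
abbrev Coord (V ρ : Type*) := (V × Fin 2 × Fin 3) ⊕ ρ

variable {V ρ : Type*} {K : Type*} [NontriviallyNormedField K] [IsUltrametricDist K]
  {O : Type*} [CommRing O] (δ : V → O)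

/-- The relation `a² + be - δ²`. -/
def conicRel (v : V) : MvPowerSeries (Coord V ρ) O :=
  X (Sum.inl (v, 0, 0)) ^ 2 + X (Sum.inl (v, 0, 1)) * X (Sum.inl (v, 0, 2)) - C (δ v) ^ 2

/-- The minors. -/
def minorRel (v : V) (i j : Fin 3) : MvPowerSeries (Coord V ρ) O :=
  X (Sum.inl (v, 0, i)) * X (Sum.inl (v, 1, j)) - X (Sum.inl (v, 0, j)) * X (Sum.inl (v, 1, i))

/-- The ideal of the relations. -/
def relIdeal : Ideal (MvPowerSeries (Coord V ρ) O) :=
  Ideal.span (Set.range (conicRel δ) ∪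
    Set.range fun p : V × Fin 3 × Fin 3 => minorRel p.1 p.2.1 p.2.2)

variable (φ : O →+* ball1 K)

/-- The element `2` of the unit ball is `2` in the field. -/
theorem coe_two : ((2 : ball1 K) : K) = 2 := map_ofNat (ball1 K).subtype 2

/-- The direction as series. -/
def dirSeries (x y : MvPowerSeries (V × Fin 3 ⊕ ρ) (ball1 K)) :
    Fin 3 → MvPowerSeries (V × Fin 3 ⊕ ρ) (ball1 K) :=
  ![1 + 2 * x * y, -2 * x, 2 * y * (1 + x * y)]

/-- The expansion at the diagonal point. -/
def germX : Coord V ρ → MvPowerSeries (V × Fin 3 ⊕ ρ) (ball1 K)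
  | Sum.inl (v, i, j) =>
      (if i = 0 then C (φ (δ v)) else X (Sum.inl (v, 2))) *
        dirSeries (X (Sum.inl (v, 0))) (X (Sum.inl (v, 1))) j
  | Sum.inr r => X (Sum.inr r)

variable {δ φ}

theorem germX_small (hδ : ∀ v, ‖(φ (δ v) : K)‖ < 1) (c : Coord V ρ) :
    ‖((constantCoeff (germX δ φ c) : ball1 K) : K)‖ < 1 := by
  obtain ⟨v, i, j⟩ | r := c
  · simp only [germX, map_mul, Subring.coe_mul, norm_mul]
    refine mul_lt_one_of_nonneg_of_lt_one_left (norm_nonneg _) ?_ (norm_coe_le _)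
    split_ifs
    · simpa using hδ v
    · simp
  · simp [germX]

variable [CompleteSpace K] [Finite V] [Finite ρ] (hδ : ∀ v, ‖(φ (δ v) : K)‖ < 1)

/-- The germ ideal. -/
def germIdeal : Ideal (MvPowerSeries (Coord V ρ) O) :=
  RingHom.ker (compose φ (germX δ φ) (germX_small hδ))

/-- The germ ideal is prime. -/
theorem germIdeal_isPrime : (germIdeal (ρ := ρ) hδ).IsPrime :=
  haveI : IsDomain (MvPowerSeries (V × Fin 3 ⊕ ρ) (ball1 K)) := NoZeroDivisors.to_isDomain _
  RingHom.ker_isPrime _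

/-- The germ ideal contains the relations. -/
theorem relIdeal_le_germIdeal : relIdeal δ ≤ germIdeal (ρ := ρ) hδ := by
  rw [relIdeal, Ideal.span_le, Set.union_subset_iff]
  constructor
  · rintro _ ⟨v, rfl⟩
    simp only [SetLike.mem_coe, germIdeal, RingHom.mem_ker, conicRel, map_sub, map_add, map_pow,
      map_mul, compose_X, compose_C]
    simp only [germX, dirSeries, if_true, Matrix.cons_val]
    ring
  · rintro _ ⟨⟨v, i, j⟩, rfl⟩
    simp only [SetLike.mem_coe, germIdeal, RingHom.mem_ker, minorRel, map_sub, map_mul, compose_X]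
    simp only [germX, if_true, show (1 : Fin 2) ≠ 0 by decide, if_false]
    ring

/-! ## Vanishing at the points -/

/-- The germ points at the place `v`. -/
def IsGermAt (x : Coord V ρ → ball1 K) (v : V) : Prop :=
  ∃ p q t : K, ‖p‖ < 1 ∧ ‖q‖ < 1 ∧ ‖t‖ < 1 ∧
    (∀ j, (x (Sum.inl (v, 0, j)) : K) = φ (δ v) * dir p q j) ∧
    ∀ j, (x (Sum.inl (v, 1, j)) : K) = t * dir p q j

omit [CompleteSpace K] [Finite V] [Finite ρ] in
theorem norm_cubic_lt {c : Fin 4 → K} (h0 : ‖c 0‖ < 1) (h : ∀ k, ‖c k‖ ≤ 1) {z : K}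
    (hz : ‖z‖ < 1) : ‖cubic c z‖ < 1 := by
  have hb : ∀ (k : Fin 4) (n : ℕ), 1 ≤ n → ‖c k * z ^ n‖ < 1 := fun k n hn => by
    rw [norm_mul, norm_pow, mul_comm]
    exact mul_lt_one_of_nonneg_of_lt_one_left (pow_nonneg (norm_nonneg _) _)
      (pow_lt_one₀ (norm_nonneg _) hz (by omega)) (h k)
  simp only [cubic]
  refine (IsUltrametricDist.norm_add_le_max _ _).trans_lt (max_lt ?_ (hb 3 3 (by norm_num)))
  refine (IsUltrametricDist.norm_add_le_max _ _).trans_lt (max_lt ?_ (hb 2 2 (by norm_num)))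
  refine (IsUltrametricDist.norm_add_le_max _ _).trans_lt (max_lt h0 ?_)
  simpa using hb 1 1 le_rfl

variable [IsAlgClosed K] (h2 : ‖(2 : K)‖ = 1) (hδ0 : ∀ v, (φ (δ v) : K) ≠ 0)

omit [IsAlgClosed K] in
/-- A series in the germ ideal vanishes where every place is at a germ point. -/
private theorem ev_eq_zero_of_isGermAt {f : MvPowerSeries (Coord V ρ) O}
    (hf : f ∈ germIdeal (ρ := ρ) hδ) {x : Coord V ρ → ball1 K} (hx : ∀ c, ‖(x c : K)‖ < 1)
    (hg : ∀ v, IsGermAt (δ := δ) (φ := φ) x v) : ev φ x hx f = 0 := by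
  choose p q t hp hq ht h0 h1 using hg
  let b : V × Fin 3 ⊕ ρ → ball1 K := fun c => match c with
    | Sum.inl (v, k) => ![⟨p v, (hp v).le⟩, ⟨q v, (hq v).le⟩, ⟨t v, (ht v).le⟩] k
    | Sum.inr r => x (Sum.inr r)
  have hb : ∀ c, ‖(b c : K)‖ < 1 := by
    rintro (⟨v, k⟩ | r)
    · fin_cases k <;> simp [b, hp, hq, ht]
    · exact hx _
  have hcomp : compose φ (germX δ φ) (germX_small hδ) f = 0 := hf
  have := evBall_compose φ (germX δ φ) (germX_small hδ) b hb f
  rw [hcomp, map_zero] at this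
  rw [this]
  refine ev_congr φ (funext fun c => Subtype.ext ?_) _ _ f
  obtain ⟨v, i, j⟩ | r := c
  · fin_cases i <;> fin_cases j <;>
      simp [germX, dirSeries, evBall_C, evBall_X, h0, h1, dir, b, map_ofNat, coe_two]
  · simp [germX, evBall_X, b]

/-- The point with coordinates `P` at the place `v` and those of `x` elsewhere. -/
private def updAt [DecidableEq V] (v : V) (x : Coord V ρ → ball1 K) (P : Fin 2 → Fin 3 → ball1 K) :
    Coord V ρ → ball1 K
  | Sum.inl (w, i, j) => if w = v then P i j else x (Sum.inl (w, i, j))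
  | Sum.inr r => x (Sum.inr r)

omit [CompleteSpace K] [Finite V] [Finite ρ] [IsAlgClosed K] in
private theorem norm_updAt_lt [DecidableEq V] (v : V) {x : Coord V ρ → ball1 K}
    (hx : ∀ c, ‖(x c : K)‖ < 1) {P : Fin 2 → Fin 3 → ball1 K} (hP : ∀ i j, ‖(P i j : K)‖ < 1)
    (c : Coord V ρ) : ‖(updAt v x P c : K)‖ < 1 := by
  obtain ⟨w, i, j⟩ | r := c
  · simp only [updAt]
    split_ifs
    exacts [hP i j, hx _]
  · exact hx _

omit [IsAlgClosed K] in
/-- The vanishing of a series persists along cubic arcs in the coordinates at one place. -/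
private theorem persists_updAt [DecidableEq V] (v : V) {x : Coord V ρ → ball1 K}
    (hx : ∀ c, ‖(x c : K)‖ < 1) (f : MvPowerSeries (Coord V ρ) O) :
    Persists fun P => ∀ hP : ∀ i j, ‖(P i j : K)‖ < 1,
      ev φ (updAt v x P) (norm_updAt_lt v hx hP) f = 0 := by
  intro c hc0 hc ε hε hsmall z hz P hP hPlt
  let ser : Fin 2 → Fin 3 → MvPowerSeries (Fin 1) (ball1 K) := fun i j =>
    C ⟨c i j 0, hc i j 0⟩ + C ⟨c i j 1, hc i j 1⟩ * X 0 +
      C ⟨c i j 2, hc i j 2⟩ * X 0 ^ 2 + C ⟨c i j 3, hc i j 3⟩ * X 0 ^ 3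
  let fam : Coord V ρ → MvPowerSeries (Fin 1) (ball1 K) := fun e => match e with
    | Sum.inl (w, i, j) => if w = v then ser i j else C (x (Sum.inl (w, i, j)))
    | Sum.inr r => C (x (Sum.inr r))
  have hfam : ∀ e, ‖((constantCoeff (fam e) : ball1 K) : K)‖ < 1 := by
    rintro (⟨w, i, j⟩ | r)
    · simp only [fam]
      split_ifs
      · simpa [ser] using hc0 i j
      · simpa using hx _
    · simpa [fam] using hx _
  have hval : ∀ (b : Fin 1 → ball1 K) (hb : ∀ i, ‖(b i : K)‖ < 1)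
      (Q : Fin 2 → Fin 3 → ball1 K), (∀ i j, (Q i j : K) = cubic (c i j) (b 0 : K)) →
      (fun e => evBall b hb (fam e)) = updAt v x Q := by
    intro b hb Q hQ
    funext e
    obtain ⟨w, i, j⟩ | r := e
    · simp only [fam, updAt]
      split_ifs
      · refine Subtype.ext ?_
        simp [ser, evBall_C, evBall_X, hQ, cubic]
      · exact evBall_C _
    · exact evBall_C _
  have key := ev_family_eq_zero φ fam hfam f hε (fun b hb hbε => ?_)
    (fun _ => ⟨z, hz.le⟩) (fun _ => hz)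
  · rw [← key]
    exact ev_congr φ (hval _ _ P hP).symm _ _ f
  · let Q : Fin 2 → Fin 3 → ball1 K := fun i j =>
      ⟨cubic (c i j) (b 0 : K), (norm_cubic_lt (hc0 i j) (hc i j) (hb 0)).le⟩
    have := hsmall (b 0) (hbε 0) (hb 0) Q (fun i j => rfl)
      (fun i j => norm_cubic_lt (hc0 i j) (hc i j) (hb 0))
    rw [← this]
    exact ev_congr φ (hval b hb Q fun i j => rfl) _ _ f

include h2 hδ0 in
/-- A series in the germ ideal vanishes at every point satisfying the relations. -/
theorem ev_eq_zero_of_mem_germIdeal {f : MvPowerSeries (Coord V ρ) O}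
    (hf : f ∈ germIdeal (ρ := ρ) hδ) (x : Coord V ρ → ball1 K) (hx : ∀ c, ‖(x c : K)‖ < 1)
    (hu : ∀ v, (x (Sum.inl (v, 0, 0)) : K) ^ 2 +
      x (Sum.inl (v, 0, 1)) * x (Sum.inl (v, 0, 2)) = (φ (δ v) : K) ^ 2)
    (hminor : ∀ v i j, (x (Sum.inl (v, 0, i)) : K) * x (Sum.inl (v, 1, j)) =
      x (Sum.inl (v, 0, j)) * x (Sum.inl (v, 1, i))) :
    ev φ x hx f = 0 := by
  classical
  have := Fintype.ofFinite V
  -- Induction on the set of places where `x` need not be a germ point. At such a place `v` the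
  -- vanishing persists along cubic arcs and holds on the germ, hence at all points of the
  -- relations.
  suffices H : ∀ s : Finset V, ∀ (x : Coord V ρ → ball1 K) (hx : ∀ c, ‖(x c : K)‖ < 1),
      (∀ v ∈ s, ((x (Sum.inl (v, 0, 0)) : K) ^ 2 +
        x (Sum.inl (v, 0, 1)) * x (Sum.inl (v, 0, 2)) = (φ (δ v) : K) ^ 2) ∧
        ∀ i j, (x (Sum.inl (v, 0, i)) : K) * x (Sum.inl (v, 1, j)) =
          x (Sum.inl (v, 0, j)) * x (Sum.inl (v, 1, i))) →
      (∀ v, v ∉ s → IsGermAt (δ := δ) (φ := φ) x v) → ev φ x hx f = 0 from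
    H Finset.univ x hx (fun v _ => ⟨hu v, hminor v⟩) fun v h => absurd (Finset.mem_univ v) h
  intro s
  induction s using Finset.induction with
  | empty =>
    exact fun x hx _ hg => ev_eq_zero_of_isGermAt hδ hf hx fun v => hg v (Finset.notMem_empty v)
  | @insert v s hv ih =>
    intro x hx hrel hg
    have hgerm : GermSat (fun P => ∀ hP : ∀ i j, ‖(P i j : K)‖ < 1,
        ev φ (updAt v x P) (norm_updAt_lt v hx hP) f = 0) (φ (δ v) : K) := by
      intro p q t hp hq ht P h0 h1 hP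
      refine ih (updAt v x P) (norm_updAt_lt v hx hP) (fun w hw => ?_) (fun w hw => ?_)
      · have hwv : w ≠ v := fun h => hv (h ▸ hw)
        simpa [updAt, hwv] using hrel w (Finset.mem_insert_of_mem hw)
      · by_cases hwv : w = v
        · subst hwv
          exact ⟨p, q, t, hp, hq, ht, fun j => by simpa [updAt] using h0 j,
            fun j => by simpa [updAt] using h1 j⟩
        · simpa [IsGermAt, updAt, hwv] using hg w (by simp [hw, hwv])
    obtain ⟨hu, hm⟩ := hrel v (Finset.mem_insert_self v s)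
    have := sat_of_relations (persists_updAt v hx f) h2 (hδ0 v) (hδ v) hgerm
      (u := fun j => (x (Sum.inl (v, 0, j)) : K)) (w := fun j => (x (Sum.inl (v, 1, j)) : K))
      (fun j => hx _) (fun j => hx _) hu (hm 0 1) (hm 0 2) (hm 1 2)
      (fun i j => x (Sum.inl (v, i, j))) (fun j => rfl) (fun j => rfl) (fun i j => hx _)
    rw [← this]
    refine ev_congr φ (funext fun c => ?_) _ _ f
    obtain ⟨w, i, j⟩ | r := c
    · by_cases hwv : w = v
      · subst hwv; simp [updAt]
      · simp [updAt, hwv]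
    · rfl

/-! ## Small coefficients -/

omit [IsUltrametricDist K] [CompleteSpace K] [Finite V] [IsAlgClosed K] in
/-- A radius below `1` bounding `r₀` and finitely many numbers below `1`. -/
private theorem exists_lt_one_bound [Fintype V] {r₀ : ℝ} (hr₀ : r₀ < 1) {u : V → ℝ}
    (hu : ∀ v, u v < 1) : ∃ c : ℝ, (r₀ ≤ c ∧ ∀ v, u v ≤ c) ∧ c < 1 := by
  rcases (Finset.univ : Finset V).eq_empty_or_nonempty with h | h
  · exact ⟨r₀, ⟨le_rfl, fun v => absurd (Finset.mem_univ v) (by simp [h])⟩, hr₀⟩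
  · exact ⟨max r₀ (Finset.univ.sup' h u),
      ⟨le_max_left _ _, fun v => le_max_of_le_right (Finset.le_sup' u (Finset.mem_univ v))⟩,
      max_lt hr₀ ((Finset.sup'_lt_iff h).mpr fun v _ => hu v)⟩

omit [CompleteSpace K] in
/-- For `2 a ≠ b` some square root of `z ^ (2 a) + z ^ b` has norm at least `‖z‖ ^ a`. -/
private theorem exists_sq_eq_and_pow_le_norm {z : K} (hz0 : z ≠ 0) (hz1 : ‖z‖ < 1) {a b : ℕ}
    (hab : 2 * a ≠ b) : ∃ g : K, g ^ 2 = z ^ (2 * a) + z ^ b ∧ ‖z‖ ^ a ≤ ‖g‖ := by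
  obtain ⟨g, hg⟩ := IsAlgClosed.exists_pow_nat_eq (z ^ (2 * a) + z ^ b) two_pos
  have hn : ‖z ^ (2 * a)‖ ≠ ‖z ^ b‖ := by
    rw [norm_pow, norm_pow]
    exact fun h => hab (pow_right_injective₀ (norm_pos_iff.mpr hz0) hz1.ne h)
  have := IsUltrametricDist.norm_add_eq_max_of_norm_ne_norm hn
  rw [← hg, norm_pow, norm_pow] at this
  refine ⟨g, hg, le_of_pow_le_pow_left₀ two_ne_zero (norm_nonneg _) ?_⟩
  rw [this, ← pow_mul, mul_comm]
  exact le_max_left _ _

omit [Finite V] [Finite ρ] in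
/-- Separating weights keep `2 k (s)` away from `k (t) + k (r)`. -/
private theorem two_mul_ne_add [Fintype V] [Fintype ρ] {k : Coord V ρ → ℕ}
    (hsep : ∀ d d' : Coord V ρ →₀ ℕ, tdeg d = 2 → tdeg d' = 2 → weight k d = weight k d' → d = d')
    (v : V) : 2 * k (Sum.inl (v, 1, 0)) ≠ k (Sum.inl (v, 1, 1)) + k (Sum.inl (v, 1, 2)) := by
  classical
  intro h
  have key := hsep (Finsupp.single (Sum.inl (v, 1, 0)) 2)
    (Finsupp.single (Sum.inl (v, 1, 1)) 1 + Finsupp.single (Sum.inl (v, 1, 2)) 1)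
    (by simp [tdeg, Finsupp.single_apply])
    (by simp [tdeg, Finsupp.single_apply, Finset.sum_add_distrib])
    (by simp [weight, Finsupp.single_apply, mul_add, Finset.sum_add_distrib]; omega)
  have := congrArg (fun e => e (Sum.inl (v, 1, 0))) key
  simp at this

omit [IsUltrametricDist K] [CompleteSpace K] [IsAlgClosed K] [Finite V] [Finite ρ] in
/-- A monomial takes the value `z ^ weight k d` where its variables take the values `z ^ k c`. -/
private theorem prod_eq_pow_weight {σ : Type*} [Fintype σ] (k : σ → ℕ) (z : K) {x : σ → K}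
    {d : σ →₀ ℕ} (h : ∀ c ∈ d.support, x c = z ^ k c) :
    (d.prod fun c n => x c ^ n) = z ^ weight k d := by
  rw [← prod_pow_eq k z d]
  exact Finsupp.prod_congr fun c hc => by rw [h c hc]

omit [IsUltrametricDist K] [CompleteSpace K] [IsAlgClosed K] [Finite V] [Finite ρ] in
/-- In the closed polydisc a monomial is no larger than any variable occurring in it. -/
private theorem norm_prod_le_of_ne_zero {σ : Type*} [Fintype σ] {x : σ → K} (hx : ∀ c, ‖x c‖ ≤ 1)
    {d : σ →₀ ℕ} {c : σ} (hc : d c ≠ 0) : ‖d.prod fun c n => x c ^ n‖ ≤ ‖x c‖ := by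
  classical
  rw [Finsupp.prod_fintype _ _ fun c => pow_zero _, norm_prod,
    ← Finset.mul_prod_erase _ _ (Finset.mem_univ c)]
  refine le_trans (mul_le_of_le_one_right (norm_nonneg _) ?_) ?_
  · exact Finset.prod_le_one (fun c _ => norm_nonneg _) fun c _ => by
      rw [norm_pow]; exact pow_le_one₀ (norm_nonneg _) (hx c)
  · rw [norm_pow]
    exact pow_le_of_le_one (norm_nonneg _) (hx c) hc

include h2 hδ0 in
/-- Coefficients of a series in the germ ideal at monomials free of `a, b, e` are small. -/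
theorem norm_coeff_lt_one_of_mem_germIdeal {r₀ : ℝ} (hr₀ : r₀ < 1)
    (hdisc : ∀ c : O, ‖(φ c : K)‖ < 1 → ‖(φ c : K)‖ ≤ r₀)
    {f : MvPowerSeries (Coord V ρ) O} (hf : f ∈ germIdeal (ρ := ρ) hδ)
    {d : Coord V ρ →₀ ℕ} (hd : ∀ v j, d (Sum.inl (v, 0, j)) = 0) :
    ‖(φ (coeff d f) : K)‖ < 1 := by
  classical
  have := Fintype.ofFinite V
  have := Fintype.ofFinite ρ
  by_contra hne
  have hd1 : ‖(φ (coeff d f) : K)‖ = 1 := le_antisymm (norm_coe_le _) (not_lt.mp hne)
  obtain ⟨k, hk, ⟨d₀, ⟨hd₀, hd₀1⟩, hmin⟩, hsep⟩ :=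
    exists_weights (A := {d : Coord V ρ →₀ ℕ | (∀ v j, d (Sum.inl (v, 0, j)) = 0) ∧
      ‖(φ (coeff d f) : K)‖ = 1}) ⟨d, hd, hd1⟩
  set w₀ := weight k d₀
  set N := ∑ c, k c
  obtain ⟨c₁, hc₁, hc₁1⟩ := exists_lt_one_bound hr₀ hδ
  obtain ⟨z, hz0, hz1, hzc⟩ := exists_eta (K := K) hc₁1 (w₀ + N)
  have hzp : 0 < ‖z‖ := norm_pos_iff.mpr hz0
  have hkN : ∀ c, k c ≤ N := fun c =>
    Finset.single_le_sum (f := k) (fun _ _ => Nat.zero_le _) (Finset.mem_univ c)
  -- Evaluate at `x = z ^ k` on the free variables and `(a, b, e) = δ (s, t, r) / g` where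
  -- `g² = s² + t r`: a point of the relations, where the term at `d₀` would dominate all others.
  choose g hg hgn using fun v => exists_sq_eq_and_pow_le_norm hz0 hz1 (two_mul_ne_add hsep v)
  have hg0 : ∀ v, g v ≠ 0 := fun v =>
    norm_pos_iff.mp (lt_of_lt_of_le (pow_pos hzp _) (hgn v))
  set B := max (‖z‖ ^ (w₀ + 1)) (c₁ / ‖z‖ ^ N) with hB
  have hBlt : B < ‖z‖ ^ w₀ :=
    max_lt (by rw [pow_succ]; exact mul_lt_of_lt_one_right (pow_pos hzp _) hz1)
    (by rw [div_lt_iff₀ (pow_pos hzp _), ← pow_add]; exact hzc)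
  have hub : ∀ v j, ‖(φ (δ v) : K) * z ^ k (Sum.inl (v, 1, j)) / g v‖ ≤ c₁ / ‖z‖ ^ N := by
    intro v j
    rw [norm_div, norm_mul, norm_pow]
    refine div_le_div₀ ((norm_nonneg _).trans (hc₁.2 v)) ?_ (pow_pos hzp _) ?_
    · exact (mul_le_of_le_one_right (norm_nonneg _) (pow_le_one₀ (norm_nonneg _) hz1.le)).trans
        (hc₁.2 v)
    · exact (pow_le_pow_of_le_one (norm_nonneg _) hz1.le (hkN _)).trans (hgn v)
  have hB1 : B < 1 := hBlt.trans_le (pow_le_one₀ (norm_nonneg _) hz1.le)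
  let x : Coord V ρ → K := fun c => match c with
    | Sum.inl (v, i, j) => if i = 0 then (φ (δ v) : K) * z ^ k (Sum.inl (v, 1, j)) / g v
        else z ^ k (Sum.inl (v, i, j))
    | Sum.inr r => z ^ k (Sum.inr r)
  have hx : ∀ c, ‖x c‖ < 1 := by
    rintro (⟨v, i, j⟩ | r)
    · simp only [x]
      split_ifs
      · exact ((hub v j).trans (le_max_right _ _)).trans_lt hB1
      · exact norm_pow_lt_one hz1 (hk _)
    · exact norm_pow_lt_one hz1 (hk _)
  have hev := ev_eq_zero_of_mem_germIdeal (ρ := ρ) hδ h2 hδ0 hf (toBall x hx) hx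
    (fun v => by
      have := hg v
      simp [toBall, x]
      field_simp [hg0 v]
      rw [this]
      ring)
    (fun v i j => by simp [toBall, x]; ring)
  have hprod : ∀ e : Coord V ρ →₀ ℕ, (∀ v j, e (Sum.inl (v, 0, j)) = 0) →
      (e.prod fun c n => ((toBall x hx c : ball1 K) : K) ^ n) = z ^ weight k e := fun e he =>
    prod_eq_pow_weight k z fun c hc => by
      obtain ⟨v, i, j⟩ | r := c
      · have hi : i ≠ 0 := fun h => Finsupp.mem_support_iff.mp hc (h ▸ he v j)
        simp [toBall, x, hi]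
      · simp [toBall, x]
  have hterm := norm_ev_sub_term_le φ (toBall x hx) hx f d₀
    (B := B) (le_max_of_le_left (pow_nonneg (norm_nonneg _) _)) (fun e he => ?_)
  · rw [hev, ZeroMemClass.coe_zero, zero_sub, norm_neg, norm_mul, hd₀1, one_mul] at hterm
    rw [hprod d₀ hd₀, norm_pow] at hterm
    exact absurd hterm (not_le.mpr hBlt)
  · rw [norm_mul]
    by_cases hue : ∀ v j, e (Sum.inl (v, 0, j)) = 0
    · rw [hprod e hue, norm_pow]
      rcases lt_or_eq_of_le (norm_coe_le (φ (coeff e f))) with hlt | heq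
      · refine le_max_of_le_right ?_
        calc ‖(φ (coeff e f) : K)‖ * ‖z‖ ^ weight k e ≤ c₁ * 1 :=
              mul_le_mul ((hdisc _ hlt).trans hc₁.1) (pow_le_one₀ (norm_nonneg _) hz1.le)
                (pow_nonneg (norm_nonneg _) _) ((norm_nonneg _).trans ((hdisc _ hlt).trans hc₁.1))
          _ ≤ c₁ / ‖z‖ ^ N := by
              rw [mul_one, le_div_iff₀ (pow_pos hzp _)]
              exact mul_le_of_le_one_right ((norm_nonneg _).trans ((hdisc _ hlt).trans hc₁.1))
                (pow_le_one₀ (norm_nonneg _) hz1.le)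
      · rw [heq, one_mul]
        exact le_max_of_le_left
          (pow_le_pow_of_le_one (norm_nonneg _) hz1.le (hmin e ⟨hue, heq⟩ he))
    · push Not at hue
      obtain ⟨v, j, hvj⟩ := hue
      refine le_max_of_le_right ((mul_le_of_le_one_left (norm_nonneg _) (norm_coe_le _)).trans ?_)
      refine (norm_prod_le_of_ne_zero (fun c => norm_coe_le _) hvj).trans ?_
      simpa [toBall, x] using hub v j

end Fermat.Agent.RT.Germ
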