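import Mathlib.Algebra.Order.Ring.Star
import Mathlib.Algebra.Order.Star.Real
import Mathlib.Analysis.Normed.Group.Ultra
import Mathlib.Tactic
import Mathlib.Topology.Connected.Separation
import Mathlib.Topology.MetricSpace.Ultra.TotallySeparated
import Fermat.Agent.Patching.PowerSeriesRegular

/-!
# Evaluation of power series on the unit ball of an ultrametric field

`ev φ x f` evaluates a power series with coefficients in a ring `O` (mapped by `φ` into the
closed unit ball of `K`) at a point of the unit polydisc.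
-/

set_option autoImplicit false

namespace Fermat.Agent.RT.Germ

open Filter

variable (K : Type*) [NontriviallyNormedField K] [IsUltrametricDist K]

/-- The closed unit ball, as a subring. -/
def ball1 : Subring K where
  carrier := {x | ‖x‖ ≤ 1}
  mul_mem' {a b} ha hb := by
    simp only [Set.mem_ofPred_eq, norm_mul] at *
    exact mul_le_one₀ ha (norm_nonneg _) hb
  one_mem' := by simp
  add_mem' {a b} ha hb := (IsUltrametricDist.norm_add_le_max a b).trans (max_le ha hb)
  zero_mem' := by simp
  neg_mem' {a} ha := by simpa using ha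

variable {K}

/-- An element of the closed unit ball has norm at most one. -/
theorem norm_coe_le (x : ball1 K) : ‖(x : K)‖ ≤ 1 := x.2

instance ball1_completeSpace [CompleteSpace K] : CompleteSpace (ball1 K) := by
  have h : IsClosed {x : K | ‖x‖ ≤ 1} := isClosed_le continuous_norm continuous_const
  exact h.completeSpace_coe

instance ball1_isUniformAddGroup : IsUniformAddGroup (ball1 K) :=
  (inferInstance : IsUniformAddGroup (ball1 K).toAddSubgroup)

/-- The ideal of elements of norm `≤ r`. -/
def smallIdeal (r : ℝ) (hr : 0 ≤ r) : Ideal (ball1 K) where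
  carrier := {x | ‖(x : K)‖ ≤ r}
  add_mem' {a b} ha hb := by
    simp only [Set.mem_ofPred_eq, Subring.coe_add] at *
    exact (IsUltrametricDist.norm_add_le_max _ _).trans (max_le ha hb)
  zero_mem' := by simpa using hr
  smul_mem' c x hx := by
    simp only [Set.mem_ofPred_eq, smul_eq_mul, Subring.coe_mul, norm_mul] at *
    calc ‖(c : K)‖ * ‖(x : K)‖ ≤ 1 * r :=
          mul_le_mul (norm_coe_le c) hx (norm_nonneg _) zero_le_one
      _ = r := one_mul r

instance ball1_isLinearTopology : IsLinearTopology (ball1 K) (ball1 K) := by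
  refine IsLinearTopology.mk_of_hasBasis' (ball1 K) (ι := {r : ℝ // 0 < r})
    (p := fun _ => True) (s := fun r => smallIdeal r.1 r.2.le) ?_ ?_
  · refine Metric.nhds_basis_closedBall.to_hasBasis (fun r hr => ⟨⟨r, hr⟩, trivial, ?_⟩)
      (fun r _ => ⟨r.1, r.2, ?_⟩)
    · intro x hx
      have hx' : ‖(x : K)‖ ≤ r := hx
      simpa [Metric.mem_closedBall, Subtype.dist_eq, dist_eq_norm] using hx'
    · intro x hx
      show ‖(x : K)‖ ≤ r.1
      simpa [Metric.mem_closedBall, Subtype.dist_eq, dist_eq_norm] using hx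
  · intro s r m hm
    exact s.mul_mem_left r hm

theorem isTopologicallyNilpotent_of_norm_lt_one {x : ball1 K} (hx : ‖(x : K)‖ < 1) :
    IsTopologicallyNilpotent x := by
  refine tendsto_subtype_rng.mpr ?_
  simpa using tendsto_pow_atTop_nhds_zero_of_norm_lt_one hx

/-- A point of the open unit polydisc, as a family in the closed ball. -/
def toBall {σ : Type*} (x : σ → K) (hx : ∀ i, ‖x i‖ < 1) : σ → ball1 K :=
  fun i => ⟨x i, (hx i).le⟩

theorem hasEval_of_norm_lt_one {σ : Type*} [Finite σ] {a : σ → ball1 K}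
    (ha : ∀ i, ‖(a i : K)‖ < 1) : MvPowerSeries.HasEval a where
  hpow i := isTopologicallyNilpotent_of_norm_lt_one (ha i)
  tendsto_zero := by
    rw [Filter.cofinite_eq_bot]
    exact tendsto_bot

section Ev

variable [CompleteSpace K] {O : Type*} [CommRing O] {σ : Type*} [Finite σ]

variable (φ : O →+* ball1 K) (a : σ → ball1 K) (ha : ∀ i, ‖(a i : K)‖ < 1)

/-- Evaluation at a point of the open unit polydisc. -/
noncomputable def ev : MvPowerSeries σ O →+* ball1 K :=
  letI : UniformSpace O := ⊥
  haveI : DiscreteTopology O := discreteTopology_bot O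
  haveI : IsTopologicalSemiring O := {}
  haveI : DiscreteUniformity O := ⟨rfl⟩
  MvPowerSeries.eval₂Hom (φ := φ) continuous_of_discreteTopology (hasEval_of_norm_lt_one ha)

/-- Evaluation of a constant series is the image of the constant under `φ`. -/
theorem ev_C (r : O) : ev φ a ha (MvPowerSeries.C r) = φ r := by
  let : UniformSpace O := ⊥
  rw [ev, MvPowerSeries.coe_eval₂Hom, MvPowerSeries.eval₂_C]

/-- Evaluation of a variable is its coordinate of the point. -/
theorem ev_X (i : σ) : ev φ a ha (MvPowerSeries.X i) = a i := by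
  let : UniformSpace O := ⊥
  rw [ev, MvPowerSeries.coe_eval₂Hom, MvPowerSeries.eval₂_X]

theorem hasSum_ev (f : MvPowerSeries σ O) :
    HasSum (fun d : σ →₀ ℕ => (φ (MvPowerSeries.coeff d f) : K) *
      d.prod fun s e => (a s : K) ^ e) (ev φ a ha f : K) := by
  let : UniformSpace O := ⊥
  have h := MvPowerSeries.hasSum_eval₂ (φ := φ) continuous_of_discreteTopology
    (hasEval_of_norm_lt_one ha) f
  have h' := h.map (ball1 K).subtype continuous_subtype_val
  rw [ev, MvPowerSeries.coe_eval₂Hom]
  convert h' using 2 with d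
  · simp only [Function.comp_apply, map_mul, map_finsuppProd, map_pow]
    rfl
  · rfl

/-- Any ring map into the closed ball which agrees on constants and variables is evaluation. -/
theorem eq_ev {ψ : MvPowerSeries σ O →+* ball1 K} (hC : ∀ r, ψ (MvPowerSeries.C r) = φ r)
    (hX : ∀ i, ψ (MvPowerSeries.X i) = a i) : ψ = ev φ a ha := by
  classical
  have := Fintype.ofFinite σ
  obtain ⟨c, hc0, hc1, hc⟩ : ∃ c : ℝ, 0 ≤ c ∧ c < 1 ∧ ∀ i, ‖(a i : K)‖ ≤ c := by
    rcases (Finset.univ : Finset σ).eq_empty_or_nonempty with h | h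
    · exact ⟨0, le_rfl, zero_lt_one, fun i => absurd (Finset.mem_univ i) (by simp [h])⟩
    · refine ⟨Finset.univ.sup' h fun i => ‖(a i : K)‖, ?_, ?_, fun i => ?_⟩
      · exact le_trans (norm_nonneg _)
          (Finset.le_sup' (fun i => ‖(a i : K)‖) h.choose_spec)
      · exact (Finset.sup'_lt_iff h).mpr fun i _ => ha i
      · exact Finset.le_sup' (fun i => ‖(a i : K)‖) (Finset.mem_univ i)
  have key : ∀ n : ℕ, ∀ f, ‖((ψ f - ev φ a ha f : ball1 K) : K)‖ ≤ c ^ n := by
    intro n
    induction n with
    | zero => intro f; simpa using norm_coe_le (ψ f - ev φ a ha f)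
    | succ n ih =>
      intro f
      obtain ⟨g, hg⟩ := (Ideal.mem_span_range_iff_exists_fun).mp
        (Patching.sub_C_mem_span_range_X f)
      have e : ψ f - ev φ a ha f = ∑ i, (ψ (g i) - ev φ a ha (g i)) * a i := by
        have hf : f = ∑ i, g i * MvPowerSeries.X i +
            MvPowerSeries.C (MvPowerSeries.constantCoeff f) := by rw [hg]; ring
        rw [hf]
        simp only [map_add, map_sum, map_mul, hC, hX, ev_C, ev_X, sub_mul,
          Finset.sum_sub_distrib]
        ring
      rw [e, AddSubmonoidClass.coe_finsetSum]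
      refine IsUltrametricDist.norm_sum_le_of_forall_le_of_nonneg (pow_nonneg hc0 _)
        fun i _ => ?_
      rw [Subring.coe_mul, norm_mul, pow_succ]
      exact mul_le_mul (ih (g i)) (hc i) (norm_nonneg _) (pow_nonneg hc0 _)
  refine RingHom.ext fun f => sub_eq_zero.mp (Subtype.ext (norm_eq_zero.mp ?_))
  exact le_antisymm (ge_of_tendsto' (tendsto_pow_atTop_nhds_zero_of_lt_one hc0 hc1)
    fun n => key n f) (norm_nonneg _)

/-- A bound for the difference between a value and one of its terms. -/
theorem norm_ev_sub_term_le (f : MvPowerSeries σ O) (d₀ : σ →₀ ℕ) {B : ℝ} (hB : 0 ≤ B)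
    (h : ∀ d, d ≠ d₀ →
      ‖(φ (MvPowerSeries.coeff d f) : K) * d.prod fun s e => (a s : K) ^ e‖ ≤ B) :
    ‖(ev φ a ha f : K) - (φ (MvPowerSeries.coeff d₀ f) : K) *
      d₀.prod fun s e => (a s : K) ^ e‖ ≤ B := by
  classical
  set T : (σ →₀ ℕ) → K := fun d => (φ (MvPowerSeries.coeff d f) : K) *
    d.prod fun s e => (a s : K) ^ e with hT
  have h1 := hasSum_ite_sub_hasSum (hasSum_ev φ a ha f) d₀
  rw [← h1.tsum_eq]
  refine IsUltrametricDist.norm_tsum_le_of_forall_le_of_nonneg hB fun d => ?_
  split_ifs with hd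
  · simpa using hB
  · exact h d hd

end Ev

section Comp

variable [CompleteSpace K] {O : Type*} [CommRing O] {σ τ : Type*} [Finite σ] [Finite τ]

open scoped MvPowerSeries.WithPiTopology

/-- Evaluation of a series with coefficients in the ball. -/
noncomputable def evBall (b : τ → ball1 K) (hb : ∀ i, ‖(b i : K)‖ < 1) :
    MvPowerSeries τ (ball1 K) →+* ball1 K :=
  MvPowerSeries.eval₂Hom (φ := RingHom.id _) continuous_id (hasEval_of_norm_lt_one hb)

theorem evBall_eq_ev (b : τ → ball1 K) (hb : ∀ i, ‖(b i : K)‖ < 1) :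
    evBall b hb = ev (RingHom.id _) b hb := by
  refine eq_ev _ _ _ (fun r => ?_) (fun i => ?_)
  · rw [evBall, MvPowerSeries.coe_eval₂Hom, MvPowerSeries.eval₂_C]
  · rw [evBall, MvPowerSeries.coe_eval₂Hom, MvPowerSeries.eval₂_X]

theorem norm_evBall_sub_constant_lt (g : MvPowerSeries τ (ball1 K)) (b : τ → ball1 K)
    (hb : ∀ i, ‖(b i : K)‖ < 1) :
    ‖((evBall b hb g - MvPowerSeries.constantCoeff g : ball1 K) : K)‖ < 1 := by
  classical
  have := Fintype.ofFinite τ
  obtain ⟨r, hr⟩ := (Ideal.mem_span_range_iff_exists_fun).mp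
    (Patching.sub_C_mem_span_range_X g)
  have e : evBall b hb g - MvPowerSeries.constantCoeff g = ∑ i, evBall b hb (r i) * b i := by
    have h := congrArg (evBall b hb) hr
    simp only [map_sum, map_mul, map_sub, evBall_eq_ev, ev_C, ev_X, RingHom.id_apply] at h
    rw [evBall_eq_ev, h]
  rw [e, AddSubmonoidClass.coe_finsetSum]
  rcases (Finset.univ : Finset τ).eq_empty_or_nonempty with h | h
  · simp [h]
  · refine lt_of_le_of_lt (h.norm_sum_le_sup'_norm _) ((Finset.sup'_lt_iff h).mpr fun i _ => ?_)
    rw [Subring.coe_mul, norm_mul]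
    exact lt_of_le_of_lt (mul_le_of_le_one_left (norm_nonneg _) (norm_coe_le _)) (hb i)

/-- Evaluation in the open disc of a series with small constant term is small. -/
theorem norm_evBall_lt_one {g : MvPowerSeries τ (ball1 K)}
    (hg : ‖((MvPowerSeries.constantCoeff g : ball1 K) : K)‖ < 1) (b : τ → ball1 K)
    (hb : ∀ i, ‖(b i : K)‖ < 1) : ‖(evBall b hb g : K)‖ < 1 := by
  have h := norm_evBall_sub_constant_lt g b hb
  rw [AddSubgroupClass.coe_sub] at h
  have := IsUltrametricDist.norm_add_le_max ((evBall b hb g : K) - MvPowerSeries.constantCoeff g)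
    ((MvPowerSeries.constantCoeff g : ball1 K) : K)
  rw [sub_add_cancel] at this
  exact lt_of_le_of_lt this (max_lt h hg)

omit [CompleteSpace K] [Finite τ] in
theorem hasEval_series {x : σ → MvPowerSeries τ (ball1 K)}
    (hx : ∀ i, ‖((MvPowerSeries.constantCoeff (x i) : ball1 K) : K)‖ < 1) :
    MvPowerSeries.HasEval x where
  hpow i := (MvPowerSeries.LinearTopology.isTopologicallyNilpotent_iff_constantCoeff _).mpr
    (isTopologicallyNilpotent_of_norm_lt_one (hx i))
  tendsto_zero := by
    rw [Filter.cofinite_eq_bot]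
    exact tendsto_bot

/-- Substitution of series with small constant terms. -/
noncomputable def compose (φ : O →+* ball1 K) (x : σ → MvPowerSeries τ (ball1 K))
    (hx : ∀ i, ‖((MvPowerSeries.constantCoeff (x i) : ball1 K) : K)‖ < 1) :
    MvPowerSeries σ O →+* MvPowerSeries τ (ball1 K) :=
  letI : UniformSpace O := ⊥
  haveI : DiscreteTopology O := discreteTopology_bot O
  haveI : IsTopologicalSemiring O := {}
  haveI : DiscreteUniformity O := ⟨rfl⟩
  MvPowerSeries.eval₂Hom (φ := (MvPowerSeries.C).comp φ) continuous_of_discreteTopology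
    (hasEval_series hx)

omit [Finite τ] in
theorem compose_C (φ : O →+* ball1 K) (x : σ → MvPowerSeries τ (ball1 K))
    (hx : ∀ i, ‖((MvPowerSeries.constantCoeff (x i) : ball1 K) : K)‖ < 1) (r : O) :
    compose φ x hx (MvPowerSeries.C r) = MvPowerSeries.C (φ r) := by
  let : UniformSpace O := ⊥
  rw [compose, MvPowerSeries.coe_eval₂Hom, MvPowerSeries.eval₂_C]
  rfl

omit [Finite τ] in
theorem compose_X (φ : O →+* ball1 K) (x : σ → MvPowerSeries τ (ball1 K))
    (hx : ∀ i, ‖((MvPowerSeries.constantCoeff (x i) : ball1 K) : K)‖ < 1) (i : σ) :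
    compose φ x hx (MvPowerSeries.X i) = x i := by
  let : UniformSpace O := ⊥
  rw [compose, MvPowerSeries.coe_eval₂Hom, MvPowerSeries.eval₂_X]

/-- Evaluation of a substituted series is evaluation at the evaluated point. -/
theorem evBall_compose (φ : O →+* ball1 K) (x : σ → MvPowerSeries τ (ball1 K))
    (hx : ∀ i, ‖((MvPowerSeries.constantCoeff (x i) : ball1 K) : K)‖ < 1) (b : τ → ball1 K)
    (hb : ∀ i, ‖(b i : K)‖ < 1) (f : MvPowerSeries σ O) :
    evBall b hb (compose φ x hx f) =
      ev φ (fun i => evBall b hb (x i)) (fun i => norm_evBall_lt_one (hx i) b hb) f := by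
  have h : (evBall b hb).comp (compose φ x hx) =
      ev φ (fun i => evBall b hb (x i)) (fun i => norm_evBall_lt_one (hx i) b hb) := by
    refine eq_ev _ _ _ (fun r => ?_) (fun i => ?_)
    · simp [compose_C, evBall_eq_ev, ev_C]
    · simp [compose_X]
  exact RingHom.congr_fun h f

end Comp

end Fermat.Agent.RT.Germ
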