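import Fermat.Agent.RT.Algebra.Dense

/-!
# The prime of the special places with scalar residual Frobenius

At each place the coordinates `(v, 0, ·)` are the traceless Frobenius `F`, on the conic of `η`,
and `(v, 1, ·)` are the traceless monodromy `N`, with `F N = η N`. Their points are images of the
points of the conic relations by a polynomial map of rank one, so the functions vanishing on them
form a prime, and it is the only prime of full dimension containing the relations (`‖2‖ = 1` and
the `η v` nonzero).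

Main results: `eq_specialGerm` and `ev_eq_zero_of_specialPrime`.
-/

set_option autoImplicit false

noncomputable section

namespace Fermat.Agent.RT.Germ

open MvPowerSeries IsLocalRing Fermat.Agent.RT.Algebra

/-! ## The rank one parametrisation -/

section Vec

variable {R : Type*} [CommRing R]

/-- The rank one matrices on the eigenline, bilinear in `u` and `w`; two charts. -/
def rankOne (η : R) (s : Bool) (u w : Fin 3 → R) : Fin 3 → R :=
  if s then ![-(w 0 * u 2 + η * w 2), 2 * w 0 * u 0 + w 1 * u 2 + 2 * η * w 0, -(w 2 * u 2)]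
  else ![η * w 1 - w 1 * u 0, -(w 1 * u 1), 2 * w 0 * u 0 + w 1 * u 2 - 2 * η * w 0]

theorem map_rankOne {R' : Type*} [CommRing R'] (f : R →+* R') (η : R) (s : Bool) (u w : Fin 3 → R)
    (j : Fin 3) : f (rankOne η s u w j) = rankOne (f η) s (fun i => f (u i)) (fun i =>
      f (w i)) j := by
  cases s <;> fin_cases j <;> simp [rankOne, map_ofNat]

/-- The eigenline at `u`. -/
def eigLine (η : R) (s : Bool) (u : Fin 3 → R) : Fin 3 → R :=
  if s then ![-((u 0 + η) * u 2), (u 0 + η) ^ 2, -u 2 ^ 2]
  else ![(η - u 0) * u 1, -u 1 ^ 2, (η - u 0) ^ 2]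

/-- The condition under which the chart `s` covers `u`. -/
def chartVal (η : R) (s : Bool) (u : Fin 3 → R) : R := if s then u 0 + η else η - u 0

theorem rankOne_smul {η : R} {u : Fin 3 → R} (hu : u 0 ^ 2 + u 1 * u 2 = η ^ 2) (s : Bool) (μ : R)
    (j : Fin 3) : rankOne η s u (fun i => μ * u i) j = μ * eigLine η s u j := by
  cases s <;> fin_cases j <;> simp [rankOne, eigLine] <;>
    first
      | ring1
      | linear_combination μ * hu

/-- The four equations `F N = η N`. -/
def lineEq (η : R) (u N : Fin 3 → R) : Fin 4 → R :=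
  ![u 0 * N 0 + u 1 * N 2 - η * N 0, u 0 * N 1 - u 1 * N 0 - η * N 1,
    u 2 * N 0 - u 0 * N 2 - η * N 2, u 2 * N 1 + u 0 * N 0 + η * N 0]

/-- The equations `F N = η N` commute with ring maps. -/
theorem map_lineEq {R' : Type*} [CommRing R'] (f : R →+* R') (η : R) (u N : Fin 3 → R) (k : Fin 4) :
    f (lineEq η u N k) = lineEq (f η) (fun i => f (u i)) (fun i => f (N i)) k := by
  fin_cases k <;> simp [lineEq]

theorem lineEq_eigLine {η : R} {u : Fin 3 → R} (hu : u 0 ^ 2 + u 1 * u 2 = η ^ 2) (s : Bool)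
    (c : R) (k : Fin 4) : lineEq η u (fun j => c * eigLine η s u j) k = 0 := by
  cases s <;> fin_cases k <;> simp [lineEq, eigLine] <;>
    first
      | ring1
      | linear_combination (c * (u 0 + η)) * hu
      | linear_combination (-c * (u 0 + η)) * hu
      | linear_combination (c * u 2) * hu
      | linear_combination (-c * u 2) * hu
      | linear_combination (c * (η - u 0)) * hu
      | linear_combination (-c * (η - u 0)) * hu
      | linear_combination (c * u 1) * hu
      | linear_combination (-c * u 1) * hu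

theorem exists_eq_mul_eigLine {F : Type*} [Field F] {η : F} {s : Bool} {u N : Fin 3 → F}
    (hs : chartVal η s u ≠ 0) (h : ∀ k, lineEq η u N k = 0) :
    ∃ c : F, ∀ j, N j = c * eigLine η s u j := by
  have h0 := h 0
  have h1 := h 1
  have h2 := h 2
  have h3 := h 3
  simp only [lineEq, Matrix.cons_val] at h0 h1 h2 h3
  cases s
  · simp only [chartVal, Bool.false_eq_true, if_false] at hs
    have ha : N 0 = u 1 * N 2 / (η - u 0) := by
      rw [eq_div_iff hs]; linear_combination -h0
    refine ⟨N 2 / (η - u 0) ^ 2, fun j => ?_⟩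
    fin_cases j <;> simp [eigLine]
    · rw [ha]; field_simp
    · rw [ha] at h1
      field_simp at h1 ⊢
      linear_combination -h1
    · field_simp
  · simp only [chartVal, if_true] at hs
    have ha : N 0 = -(u 2 * N 1) / (u 0 + η) := by
      rw [eq_div_iff hs]; linear_combination h3
    refine ⟨N 1 / (u 0 + η) ^ 2, fun j => ?_⟩
    fin_cases j <;> simp [eigLine]
    · rw [ha]; field_simp
    · field_simp
    · rw [ha] at h2
      field_simp at h2 ⊢
      linear_combination -h2

end Vec

variable {V ρ : Type*} {O : Type*} [CommRing O] (η : V → O)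

/-! ## The relations and their points -/

/-- The equations at the place `v`. -/
def lineRel (v : V) (k : Fin 4) : MvPowerSeries (Coord V ρ) O :=
  lineEq (C (η v)) (fun j => X (Sum.inl (v, 0, j))) (fun j => X (Sum.inl (v, 1, j))) k

/-- The relations of the special places. -/
def specialRel : Ideal (MvPowerSeries (Coord V ρ) O) :=
  Ideal.span (Set.range (conicRel η) ∪ Set.range fun p : V × Fin 4 => lineRel η p.1 p.2)

/-- The rank one map on the coordinates. -/
def rankOneVal (s : V → Bool) : Coord V ρ → MvPowerSeries (Coord V ρ) O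
  | Sum.inl (v, i, j) =>
      if i = 0 then X (Sum.inl (v, 0, j))
      else rankOne (C (η v)) (s v) (fun k => X (Sum.inl (v, 0, k)))
        (fun k => X (Sum.inl (v, 1, k))) j
  | Sum.inr r => X (Sum.inr r)

theorem constantCoeff_rankOneVal (s : V → Bool) (c : Coord V ρ) :
    constantCoeff (rankOneVal η s c) = 0 := by
  obtain ⟨v, i, j⟩ | r := c
  · by_cases hi : i = 0
    · simp [rankOneVal, hi]
    · simp only [rankOneVal, if_neg hi, map_rankOne, constantCoeff_X, constantCoeff_C]
      cases s v <;> fin_cases j <;> simp [rankOne]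
  · simp [rankOneVal]

variable [Finite V] [Finite ρ]

/-- Substitution by the rank one map. -/
def rankOnePull (s : V → Bool) : MvPowerSeries (Coord V ρ) O →ₐ[O] MvPowerSeries (Coord V ρ) O :=
  substAlgHom (hasSubst_of_constantCoeff_zero (constantCoeff_rankOneVal η s))

theorem rankOnePull_X (s : V → Bool) (c : Coord V ρ) :
    rankOnePull η s (X c) = rankOneVal η s c := substAlgHom_X _ c

theorem rankOnePull_C (s : V → Bool) (a : O) :
    rankOnePull (ρ := ρ) η s (C a) = C a :=
  (rankOnePull (ρ := ρ) η s).commutes a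

variable {K : Type*} [NontriviallyNormedField K] [IsUltrametricDist K] [CompleteSpace K]
  (φ : O →+* ball1 K)

/-- A point as a triple. -/
def triple (x : Coord V ρ → ball1 K) (v : V) (i : Fin 2) : Fin 3 → K :=
  fun j => (x (Sum.inl (v, i, j)) : K)

theorem coe_ev_lineRel (x : Coord V ρ → ball1 K) (hx : ∀ c, ‖(x c : K)‖ < 1) (v : V) (k : Fin 4) :
    (ev φ x hx (lineRel η v k) : K) = lineEq (φ (η v) : K) (triple x v 0) (triple x v 1) k := by
  show ((ball1 K).subtype.comp (ev φ x hx)) (lineRel η v k) = _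
  rw [lineRel, map_lineEq]
  simp [ev_C, ev_X]
  rfl

theorem coe_ev_conicRel (x : Coord V ρ → ball1 K) (hx : ∀ c, ‖(x c : K)‖ < 1) (v : V) :
    (ev φ x hx (conicRel η v) : K) = triple x v 0 0 ^ 2 + triple x v 0 1 * triple x v 0 2 -
      (φ (η v) : K) ^ 2 := by
  simp [conicRel, triple, ev_C, ev_X]

/-- The points of the relations. -/
def IsSpecialPoint (x : Coord V ρ → ball1 K) : Prop :=
  ∀ v, triple x v 0 0 ^ 2 + triple x v 0 1 * triple x v 0 2 = (φ (η v) : K) ^ 2 ∧
    ∀ k, lineEq (φ (η v) : K) (triple x v 0) (triple x v 1) k = 0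

theorem ev_eq_zero_of_isSpecialPoint {x : Coord V ρ → ball1 K} {hx : ∀ c, ‖(x c : K)‖ < 1}
    (h : IsSpecialPoint η φ x) {r : MvPowerSeries (Coord V ρ) O} (hr : r ∈ specialRel η) :
    ev φ x hx r = 0 := by
  have hle : specialRel η ≤ RingHom.ker (ev φ x hx) := by
    rw [specialRel, Ideal.span_le]
    rintro _ (⟨v, rfl⟩ | ⟨⟨v, k⟩, rfl⟩)
    · refine Subtype.ext ?_
      rw [coe_ev_conicRel, (h v).1, sub_self]
      rfl
    · refine Subtype.ext ?_
      rw [coe_ev_lineRel, (h v).2]
      rfl
  exact hle hr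

theorem isSpecialPoint_of_forall {x : Coord V ρ → ball1 K} {hx : ∀ c, ‖(x c : K)‖ < 1}
    (h : ∀ r ∈ specialRel (ρ := ρ) η, ev φ x hx r = 0) : IsSpecialPoint η φ x := fun v => by
  have h1 := congrArg Subtype.val (h _ (Ideal.subset_span (Or.inl ⟨v, rfl⟩)))
  refine ⟨sub_eq_zero.mp (by rw [← coe_ev_conicRel η φ x hx]; exact h1), fun k => ?_⟩
  have h2 := congrArg Subtype.val (h _ (Ideal.subset_span (Or.inr ⟨(v, k), rfl⟩)))
  rw [← coe_ev_lineRel η φ x hx]
  exact h2

variable {η φ}

/-- Evaluation of a pull back is evaluation at the image point. -/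
theorem exists_image (hφ : ∀ v, ‖(φ (η v) : K)‖ < 1) (s : V → Bool) (x : Coord V ρ → ball1 K)
    (hx : ∀ c, ‖(x c : K)‖ < 1) :
    ∃ (y : Coord V ρ → ball1 K) (hy : ∀ c, ‖(y c : K)‖ < 1),
      (∀ f, ev φ x hx (rankOnePull η s f) = ev φ y hy f) ∧
      (∀ v, triple y v 0 = triple x v 0 ∧
        ∀ j, triple y v 1 j = rankOne (φ (η v) : K) (s v) (triple x v 0) (triple x v 1) j) ∧
      ∀ r, y (Sum.inr r) = x (Sum.inr r) := by
  -- the image point has the values of the substituted coordinates
  let y : Coord V ρ → ball1 K := fun c => ev φ x hx (rankOneVal η s c)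
  have hval : ∀ v j, (y (Sum.inl (v, 1, j)) : K) =
      rankOne (φ (η v) : K) (s v) (triple x v 0) (triple x v 1) j := fun v j => by
    show ((ball1 K).subtype.comp (ev φ x hx)) (rankOneVal η s (Sum.inl (v, 1, j))) = _
    simp only [rankOneVal, show (1 : Fin 2) ≠ 0 by decide, if_false, map_rankOne]
    simp [ev_C, ev_X]
    rfl
  -- these are small, being sums of products with a small factor
  have hy : ∀ c, ‖(y c : K)‖ < 1 := by
    rintro (⟨v, i, j⟩ | r)
    · fin_cases i
      · simpa [y, rankOneVal, ev_X] using hx _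
      · show ‖(y (Sum.inl (v, 1, j)) : K)‖ < 1
        rw [hval]
        have hm : ∀ a b : K, ‖a‖ < 1 → ‖b‖ ≤ 1 → ‖a * b‖ < 1 := fun a b ha hb => by
          rw [norm_mul]
          exact mul_lt_one_of_nonneg_of_lt_one_left (norm_nonneg _) ha hb
        have h2 : ‖(2 : K)‖ ≤ 1 := by
          rw [← one_add_one_eq_two]
          exact (IsUltrametricDist.norm_add_le_max _ _).trans (by simp)
        have hu : ∀ k, ‖triple x v 0 k‖ < 1 := fun k => hx _
        have hw : ∀ k, ‖triple x v 1 k‖ < 1 := fun k => hx _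
        have hη := hφ v
        have ha : ∀ a b : K, ‖a‖ < 1 → ‖b‖ < 1 → ‖a + b‖ < 1 := fun a b ha hb =>
          (IsUltrametricDist.norm_add_le_max _ _).trans_lt (max_lt ha hb)
        have t1 : ∀ a b, ‖2 * triple x v a b‖ < 1 := fun a b => by
          rw [mul_comm]; exact hm _ _ (hx _) h2
        have t2 : ‖2 * (φ (η v) : K)‖ < 1 := by rw [mul_comm]; exact hm _ _ hη h2
        cases s v <;> fin_cases j <;>
          simp only [rankOne, Bool.false_eq_true, if_false, if_true, Fin.zero_eta, Fin.mk_one,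
            Fin.reduceFinMk, Matrix.cons_val]
        · exact norm_sub_lt_of _ _ (hm _ _ hη (hw 1).le) (hm _ _ (hw 1) (hu 0).le)
        · rw [norm_neg]; exact hm _ _ (hw 1) (hu 1).le
        · exact norm_sub_lt_of _ _ (ha _ _ (hm _ _ (t1 1 0) (hu 0).le) (hm _ _ (hw 1) (hu 2).le))
            (hm _ _ t2 (hw 0).le)
        · rw [norm_neg]; exact ha _ _ (hm _ _ (hw 0) (hu 2).le) (hm _ _ hη (hw 2).le)
        · exact ha _ _ (ha _ _ (hm _ _ (t1 1 0) (hu 0).le) (hm _ _ (hw 1) (hu 2).le))
            (hm _ _ t2 (hw 0).le)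
        · rw [norm_neg]; exact hm _ _ (hw 2) (hu 2).le
    · simpa [y, rankOneVal, ev_X] using hx _
  refine ⟨y, hy, fun f => ?_, fun v => ⟨funext fun j => ?_, hval v⟩, fun r => ?_⟩
  -- two homomorphisms agreeing on constants and variables
  · have h : (ev φ x hx).comp (rankOnePull η s).toRingHom = ev φ y hy :=
      eq_ev φ y hy (fun a => by simp [rankOnePull_C, ev_C]) fun c => by simp [rankOnePull_X, y]
    exact RingHom.congr_fun h f
  · simp [triple, y, rankOneVal, ev_X]
  · simp [y, rankOneVal, ev_X]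

variable (hη : ∀ v, ‖(φ (η v) : K)‖ < 1)

/-! ## The prime -/

/-- The ideal of the special places. -/
def specialGerm : Ideal (MvPowerSeries (Coord V ρ) O) :=
  (germIdeal (ρ := ρ) hη).comap (rankOnePull η fun _ => true)

theorem specialGerm_isPrime : (specialGerm (ρ := ρ) hη).IsPrime :=
  haveI := germIdeal_isPrime (ρ := ρ) hη
  Ideal.IsPrime.comap _

/-- The points of the germ. -/
theorem germPoint_spec (b : V × Fin 3 ⊕ ρ → ball1 K) (hb : ∀ i, ‖(b i : K)‖ < 1) (v : V) :
    IsGermAt (δ := η) (φ := φ) (fun c : Coord V ρ => evBall b hb (germX η φ c)) v := by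
  refine ⟨b (Sum.inl (v, 0)), b (Sum.inl (v, 1)), b (Sum.inl (v, 2)), hb _, hb _, hb _,
    fun j => ?_, fun j => ?_⟩ <;>
  fin_cases j <;> simp [germX, dirSeries, evBall_C, evBall_X, dir, map_ofNat, coe_two]

variable [IsAlgClosed K] (h2 : ‖(2 : K)‖ = 1) (hη0 : ∀ v, (φ (η v) : K) ≠ 0)

include h2 hη0 in
/-- A series whose pull back is in the germ ideal vanishes at the points covered by the chart. -/
theorem ev_eq_zero_of_chart {s : V → Bool} {f : MvPowerSeries (Coord V ρ) O}
    (hf : rankOnePull η s f ∈ germIdeal (ρ := ρ) hη) (x : Coord V ρ → ball1 K)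
    (hx : ∀ c, ‖(x c : K)‖ < 1) (hP : IsSpecialPoint η φ x)
    (hs : ∀ v, chartVal (φ (η v) : K) (s v) (triple x v 0) ≠ 0) : ev φ x hx f = 0 := by
  classical
  have := Fintype.ofFinite V
  choose c hc using fun v => exists_eq_mul_eigLine (hs v) (hP v).2
  obtain ⟨z, hz0, hz1, hz⟩ : ∃ z : K, z ≠ 0 ∧ ‖z‖ < 1 ∧
      ∀ v j, ‖(x (Sum.inl (v, 1, j)) : K)‖ < ‖z‖ := by
    set m : NNReal := Finset.univ.sup fun p : V × Fin 3 => ‖(x (Sum.inl (p.1, 1, p.2)) : K)‖₊
    have hm : m < 1 := (Finset.sup_lt_iff (by simp)).mpr fun p _ => by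
      have := hx (Sum.inl (p.1, 1, p.2))
      exact_mod_cast this
    obtain ⟨z, hz0, hz1, hzm, -⟩ := exists_eta_bound (K := K) (c := (m : ℝ)) (by exact_mod_cast hm)
    exact ⟨z, hz0, hz1, fun v j => lt_of_le_of_lt
      (NNReal.coe_le_coe.mpr (Finset.le_sup (f := fun p : V × Fin 3 =>
        ‖(x (Sum.inl (p.1, 1, p.2)) : K)‖₊) (Finset.mem_univ (v, j)))) hzm⟩
  have hzp : 0 < ‖z‖ := norm_pos_iff.mpr hz0
  have hq : ∀ v j, ‖(x (Sum.inl (v, 1, j)) : K) / z‖ ≤ 1 := fun v j => by
    rw [norm_div, div_le_one hzp]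
    exact (hz v j).le
  -- Scale the second triples along an arc through `x`. Near the origin its points are images of
  -- points of the relations under the chart map, where the series vanishes.
  let fam : Coord V ρ → MvPowerSeries (Fin 1) (ball1 K) := fun e => match e with
    | Sum.inl (v, i, j) => if i = 0 then C (x (Sum.inl (v, 0, j)))
        else C ⟨(x (Sum.inl (v, 1, j)) : K) / z, hq v j⟩ * X 0
    | Sum.inr r => C (x (Sum.inr r))
  have hfam : ∀ e, ‖((constantCoeff (fam e) : ball1 K) : K)‖ < 1 := by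
    rintro (⟨v, i, j⟩ | r)
    · simp only [fam]
      split_ifs
      · simpa using hx _
      · simp
    · simpa [fam] using hx _
  have key := ev_family_eq_zero φ fam hfam f (ε := ‖z‖ / (∑ v, ‖c v‖ + 1)) (by positivity)
    (fun b hb hbε => ?_) (fun _ => ⟨z, hz1.le⟩) (fun _ => hz1)
  · rw [← key]
    refine ev_congr φ (funext fun e => Subtype.ext ?_) _ _ f
    obtain ⟨v, i, j⟩ | r := e
    · fin_cases i
      · simp [fam, evBall_C]
      · simp [fam, evBall_C, evBall_X, hz0]
    · simp [fam, evBall_C]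
  -- near the origin the points are images
  have hsmall : ∀ v, ‖c v * ((b 0 : K) / z)‖ ≤ 1 := fun v => by
    have hS : ‖c v‖ ≤ ∑ v, ‖c v‖ + 1 :=
      (Finset.single_le_sum (fun w _ => norm_nonneg (c w)) (Finset.mem_univ v)).trans (by simp)
    have h1 := (hbε 0).le
    rw [le_div_iff₀ (by positivity)] at h1
    rw [norm_mul, norm_div, ← mul_div_assoc, div_le_one hzp, mul_comm]
    exact (mul_le_mul_of_nonneg_left hS (norm_nonneg _)).trans h1
  have hlt : ∀ v j, ‖c v * ((b 0 : K) / z) * triple x v 0 j‖ < 1 := fun v j => by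
    rw [norm_mul, mul_comm]
    exact mul_lt_one_of_nonneg_of_lt_one_left (norm_nonneg _) (hx _) (hsmall v)
  let x' : Coord V ρ → ball1 K := fun e => match e with
    | Sum.inl (v, i, j) => if i = 0 then x (Sum.inl (v, 0, j))
        else ⟨c v * ((b 0 : K) / z) * triple x v 0 j, (hlt v j).le⟩
    | Sum.inr r => x (Sum.inr r)
  have hx' : ∀ e, ‖(x' e : K)‖ < 1 := by
    rintro (⟨v, i, j⟩ | r)
    · simp only [x']
      split_ifs
      · exact hx _
      · exact hlt v j
    · exact hx _
  have t0 : ∀ v, triple x' v 0 = triple x v 0 := fun v => by funext j; simp [triple, x']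
  have t1 : ∀ v j, triple x' v 1 j = c v * ((b 0 : K) / z) * triple x v 0 j := fun v j => by
    simp [triple, x']
  have h0 := ev_eq_zero_of_mem_germIdeal hη h2 hη0 hf x' hx'
    (fun v => by
      show triple x' v 0 0 ^ 2 + triple x' v 0 1 * triple x' v 0 2 = _
      rw [t0]; exact (hP v).1)
    (fun v i j => by
      show triple x' v 0 i * triple x' v 1 j = triple x' v 0 j * triple x' v 1 i
      rw [t0, t1, t1]; ring)
  obtain ⟨y, hy, hev, hy1, hy2⟩ := exists_image hη s x' hx'
  rw [hev] at h0
  rw [← h0]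
  refine ev_congr φ (funext fun e => Subtype.ext ?_) _ _ f
  obtain ⟨v, i, j⟩ | r := e
  · fin_cases i
    · simp only [Fin.zero_eta, fam, if_true, evBall_C]
      exact ((congrFun (hy1 v).1 j).trans (congrFun (t0 v) j)).symm
    · have h1 : (y (Sum.inl (v, 1, j)) : K) =
          c v * ((b 0 : K) / z) * eigLine (φ (η v) : K) (s v) (triple x v 0) j := by
        rw [show (y (Sum.inl (v, 1, j)) : K) = triple y v 1 j from rfl, (hy1 v).2, t0,
          show triple x' v 1 = fun i => c v * ((b 0 : K) / z) * triple x v 0 i from funext (t1 v),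
          rankOne_smul (hP v).1]
      simp only [Fin.mk_one, fam, show (1 : Fin 2) ≠ 0 by decide, if_false]
      rw [h1]
      simp only [map_mul, evBall_C, evBall_X, Subring.coe_mul]
      rw [show (x (Sum.inl (v, 1, j)) : K) = triple x v 1 j from rfl, hc v j]
      ring
  · rw [hy2]
    simp [fam, x', evBall_C]

include h2 hη0 in
/-- A series in the ideal of the special places vanishes at all their points. -/
theorem ev_eq_zero_of_mem_specialGerm {f : MvPowerSeries (Coord V ρ) O}
    (hf : f ∈ specialGerm (ρ := ρ) hη) (x : Coord V ρ → ball1 K) (hx : ∀ c, ‖(x c : K)‖ < 1)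
    (hP : IsSpecialPoint η φ x) : ev φ x hx f = 0 := by
  classical
  have h20 : (2 : K) ≠ 0 := norm_pos_iff.mp (h2 ▸ one_pos)
  let s : V → Bool := fun v => decide (triple x v 0 0 + (φ (η v) : K) ≠ 0)
  refine ev_eq_zero_of_chart hη h2 hη0 (s := s) ?_ x hx hP fun v => ?_
  · -- the pull back by any chart vanishes on the germ
    refine RingHom.mem_ker.mpr (compose_eq_zero φ _ _ _ one_pos fun b hb _ => ?_)
    set g : Coord V ρ → ball1 K := fun c => evBall b hb (germX η φ c)
    have hg : ∀ c, ‖(g c : K)‖ < 1 := fun c => norm_evBall_lt_one (germX_small hη c) b hb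
    have hgerm := fun v => germPoint_spec (η := η) (φ := φ) b hb v
    obtain ⟨y, hy, hev, hy1, -⟩ := exists_image hη s g hg
    refine (hev f).trans ?_
    refine ev_eq_zero_of_chart hη h2 hη0 (s := fun _ => true) (f := f) hf y hy (fun v => ?_)
      fun v => ?_
    · obtain ⟨p, q, t, -, -, -, hu, hw⟩ := hgerm v
      have hu' : triple g v 0 0 ^ 2 + triple g v 0 1 * triple g v 0 2 = (φ (η v) : K) ^ 2 := by
        simp only [triple, g, hu, dir, Matrix.cons_val]; ring
      have hw' : triple g v 1 = fun i => t / (φ (η v) : K) * triple g v 0 i := funext fun i => by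
        simp only [triple, g, hu, hw]
        field_simp [hη0 v]
      refine ⟨(hy1 v).1 ▸ hu', fun k => ?_⟩
      have hy' : triple y v 1 = fun j =>
          t / (φ (η v) : K) * eigLine (φ (η v) : K) (s v) (triple g v 0) j := funext fun j => by
        rw [(hy1 v).2, hw', rankOne_smul hu']
      rw [(hy1 v).1, hy']
      exact lineEq_eigLine hu' _ _ k
    · obtain ⟨p, q, t, hp, hq, -, hu, -⟩ := hgerm v
      rw [(hy1 v).1, chartVal, if_pos rfl]
      simp only [triple, g, hu, dir, Matrix.cons_val]
      have hpq : ‖p * q‖ < 1 := by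
        rw [norm_mul]
        exact mul_lt_one_of_nonneg_of_lt_one_left (norm_nonneg _) hp hq.le
      have h1 : (1 : K) + p * q ≠ 0 := fun h => by
        rw [eq_neg_of_add_eq_zero_right h, norm_neg, norm_one] at hpq
        exact lt_irrefl _ hpq
      rw [show (φ (η v) : K) * (1 + 2 * p * q) + φ (η v) = 2 * φ (η v) * (1 + p * q) by ring]
      exact mul_ne_zero (mul_ne_zero h20 (hη0 v)) h1
  · by_cases h : triple x v 0 0 + (φ (η v) : K) = 0
    · simp only [s, h, ne_eq, not_true_eq_false, decide_false, chartVal, Bool.false_eq_true,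
        if_false]
      rw [show (φ (η v) : K) - triple x v 0 0 = 2 * φ (η v) by linear_combination -h]
      exact mul_ne_zero h20 (hη0 v)
    · simp only [s, h, ne_eq, not_false_eq_true, decide_true, chartVal, if_true]

omit [IsAlgClosed K] in
include hη0 in
theorem specialRel_le_specialGerm : specialRel η ≤ specialGerm (ρ := ρ) hη := by
  intro r hr
  refine RingHom.mem_ker.mpr (compose_eq_zero φ _ _ _ one_pos fun b hb _ => ?_)
  set g : Coord V ρ → ball1 K := fun c => evBall b hb (germX η φ c)
  have hg : ∀ c, ‖(g c : K)‖ < 1 := fun c => norm_evBall_lt_one (germX_small hη c) b hb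
  obtain ⟨y, hy, hev, hy1, -⟩ := exists_image hη (fun _ => true) g hg
  refine (hev r).trans (ev_eq_zero_of_isSpecialPoint η φ (fun v => ?_) hr)
  obtain ⟨p, q, t, -, -, -, hu, hw⟩ := germPoint_spec (η := η) (φ := φ) b hb v
  have hu' : triple g v 0 0 ^ 2 + triple g v 0 1 * triple g v 0 2 = (φ (η v) : K) ^ 2 := by
    simp only [triple, g, hu, dir, Matrix.cons_val]; ring
  have hw' : triple g v 1 = fun i => t / (φ (η v) : K) * triple g v 0 i := funext fun i => by
    simp only [triple, g, hu, hw]
    field_simp [hη0 v]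
  refine ⟨(hy1 v).1 ▸ hu', fun k => ?_⟩
  have hy' : triple y v 1 = fun j =>
      t / (φ (η v) : K) * eigLine (φ (η v) : K) true (triple g v 0) j := funext fun j => by
    rw [(hy1 v).2, hw', rankOne_smul hu']
  rw [(hy1 v).1, hy']
  exact lineEq_eigLine hu' _ _ k

/-! ## Uniqueness -/

section Full

variable [IsDomain O] [IsDiscreteValuationRing O] [IsAdicComplete (maximalIdeal O) O]
  [Finite (ResidueField O)]

/-- The coordinates modulo the relations are finite over the parameters `N₀, N₁ + F₂, N₂ + F₁`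
and the free ones. -/
theorem finite_param_special (hηm : ∀ v, η v ∈ maximalIdeal O)
    {J : Ideal (MvPowerSeries (Coord V ρ) O)} (hJ : specialRel η ≤ J) :
    ((Ideal.Quotient.mk J).comp (param (V := V) (ρ := ρ) (O := O)).toRingHom).Finite := by
  refine finite_of_params _ (fun a ha => ?_) (fun P hP hJP hθ => ?_) fun o ho => ⟨C o, ?_, ?_⟩
  · classical
    have := Fintype.ofFinite V
    have := Fintype.ofFinite ρ
    have hcc : ∀ f : MvPowerSeries (V × Fin 3 ⊕ ρ) O, constantCoeff f ∈ maximalIdeal O →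
        (param (V := V) (ρ := ρ) (O := O)).toRingHom f ∈ maximalIdeal _ := fun f hf => by
      obtain ⟨g, hg⟩ := Ideal.mem_span_range_iff_exists_fun.mp (Patching.sub_C_mem_span_range_X f)
      rw [show f = ∑ i, g i * X i + C (constantCoeff f) by rw [hg]; ring, map_add, map_sum]
      refine add_mem (sum_mem fun i _ => ?_) ?_
      · rw [map_mul]
        refine Ideal.mul_mem_left _ _ ((IsLocalRing.mem_maximalIdeal _).mpr fun hu => ?_)
        have h1 := MvPowerSeries.isUnit_iff_constantCoeff.mp hu
        rw [show (param (V := V) (ρ := ρ) (O := O)).toRingHom (X i) = paramVal i from param_X i]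
          at h1
        obtain ⟨v, k⟩ | r := i
        · fin_cases k <;> simp [paramVal] at h1
        · simp [paramVal] at h1
      · rw [show (param (V := V) (ρ := ρ) (O := O)).toRingHom (C (constantCoeff f)) =
          C (constantCoeff f) from (param (V := V) (ρ := ρ) (O := O)).commutes _]
        exact (IsLocalRing.mem_maximalIdeal _).mpr fun h =>
          (IsLocalRing.mem_maximalIdeal _).mp hf (by
            simpa using MvPowerSeries.isUnit_iff_constantCoeff.mp h)
    exact hcc a ((IsLocalRing.mem_maximalIdeal _).mpr fun h =>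
      (IsLocalRing.mem_maximalIdeal a).mp ha (MvPowerSeries.isUnit_iff_constantCoeff.mpr h))
  -- A prime containing the relations and the parameters contains every coordinate.
  · have hX : ∀ i : V × Fin 3 ⊕ ρ, paramVal (O := O) i ∈ P := fun i => by
      rw [← param_X]
      exact hθ _ (span_X_le_maximalIdeal (Ideal.subset_span ⟨i, rfl⟩))
    have hCη : ∀ v, (C (η v) : MvPowerSeries (Coord V ρ) O) ∈ P := fun v => by
      have := hθ (C (η v)) ((IsLocalRing.mem_maximalIdeal _).mpr fun h =>
        (IsLocalRing.mem_maximalIdeal _).mp (hηm v) (by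
          simpa using MvPowerSeries.isUnit_iff_constantCoeff.mp h))
      rwa [show (param (V := V) (ρ := ρ) (O := O)).toRingHom (C (η v)) = C (η v) from
        (param (V := V) (ρ := ρ) (O := O)).commutes (η v)] at this
    rintro (⟨v, i, j⟩ | r)
    swap
    · simpa [paramVal] using hX (Sum.inr r)
    let q := Ideal.Quotient.mk P
    have hq : ∀ f, f ∈ P → q f = 0 := fun f hf => Ideal.Quotient.eq_zero_iff_mem.mpr hf
    have hcon := hq _ (hJP (hJ (Ideal.subset_span (Or.inl ⟨v, rfl⟩))))
    have hl : ∀ k, q (lineRel η v k) = 0 := fun k =>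
      hq _ (hJP (hJ (Ideal.subset_span (Or.inr ⟨(v, k), rfl⟩))))
    have h0 := hl 0
    have h1 := hl 1
    have h2' := hl 2
    have h3 := hl 3
    simp only [lineRel, lineEq, Matrix.cons_val, map_add, map_sub, map_mul,
      hq _ (hCη v)] at h0 h1 h2' h3
    simp only [conicRel, map_sub, map_add, map_pow, map_mul, hq _ (hCη v)] at hcon
    have p0 : q (X (Sum.inl (v, 1, 0))) = 0 := by simpa [paramVal] using hq _ (hX (Sum.inl (v, 0)))
    have p1 := hq _ (hX (Sum.inl (v, 1)))
    have p2 := hq _ (hX (Sum.inl (v, 2)))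
    simp only [paramVal, Matrix.cons_val, map_add] at p1 p2
    set w := q (X (Sum.inl (v, 0, 0)))
    set x := q (X (Sum.inl (v, 0, 1)))
    set y := q (X (Sum.inl (v, 0, 2)))
    set b := q (X (Sum.inl (v, 1, 1)))
    set e := q (X (Sum.inl (v, 1, 2)))
    rw [p0] at h0 h1 h2' h3
    have hx : x = 0 := mul_self_eq_zero.mp (by linear_combination x * p2 - h0)
    have hy : y = 0 := mul_self_eq_zero.mp (by linear_combination y * p1 - h3)
    have hw : w = 0 := mul_self_eq_zero.mp (by linear_combination hcon - y * hx)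
    have hb : b = 0 := by linear_combination p1 - hy
    have he : e = 0 := by linear_combination p2 - hx
    rw [← Ideal.Quotient.eq_zero_iff_mem]
    fin_cases i <;> fin_cases j <;> assumption
  · exact (IsLocalRing.mem_maximalIdeal _).mpr fun h => (IsLocalRing.mem_maximalIdeal _).mp ho (by
      simpa using MvPowerSeries.isUnit_iff_constantCoeff.mp h)
  · exact (param (V := V) (ρ := ρ) (O := O)).commutes o

include h2 hη0 in
/-- **Uniqueness of the prime**: a prime containing the relations with a quotient of dimension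
at least the number of parameters plus one is the ideal of the special places. -/
theorem eq_specialGerm (hφinj : Function.Injective φ)
    (hφ : ∀ c ∈ maximalIdeal O, ‖(φ c : K)‖ < 1) (hηm : ∀ v, η v ∈ maximalIdeal O)
    {P : Ideal (MvPowerSeries (Coord V ρ) O)} [P.IsPrime] (hrel : specialRel η ≤ P)
    (hdim : ((Nat.card (V × Fin 3 ⊕ ρ) + 1 : ℕ) : WithBot ℕ∞) ≤
      ringKrullDim (MvPowerSeries (Coord V ρ) O ⧸ P)) :
    P = specialGerm (ρ := ρ) hη := by
  classical
  have hfinP := finite_param_special (ρ := ρ) hηm hrel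
  have hbot := comap_eq_bot_of_ringKrullDim_le _ hfinP
    (by rw [ringKrullDim_mvPowerSeries]; exact hdim)
  set Q := specialGerm (ρ := ρ) hη
  have hQP : Q ≤ P := by
    intro f hf
    by_contra hfP
    obtain ⟨x, hx, hPx, hne⟩ := exists_point φ hφinj hφ _
      (fun o => (param (V := V) (ρ := ρ) (O := O)).commutes o) hfinP hbot hfP
    exact hne (ev_eq_zero_of_mem_specialGerm hη h2 hη0 hf x hx
      (isSpecialPoint_of_forall η φ fun r hr => hPx r (hrel hr)))
  refine le_antisymm ?_ hQP
  set p := (param (V := V) (ρ := ρ) (O := O)).toRingHom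
  let _ : Algebra (MvPowerSeries (V × Fin 3 ⊕ ρ) O) (MvPowerSeries (Coord V ρ) O ⧸ Q) :=
    ((Ideal.Quotient.mk Q).comp p).toAlgebra
  have : Module.Finite (MvPowerSeries (V × Fin 3 ⊕ ρ) O) (MvPowerSeries (Coord V ρ) O ⧸ Q) :=
    finite_param_special (ρ := ρ) hηm (specialRel_le_specialGerm hη hη0)
  have : Q.IsPrime := specialGerm_isPrime hη
  have hcomap : (P.map (Ideal.Quotient.mk Q)).comap
      (algebraMap (MvPowerSeries (V × Fin 3 ⊕ ρ) O) (MvPowerSeries (Coord V ρ) O ⧸ Q)) = ⊥ := by
    rw [RingHom.algebraMap_toAlgebra, ← Ideal.comap_comap,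
      Ideal.comap_map_of_surjective _ Ideal.Quotient.mk_surjective, ← RingHom.ker_eq_comap_bot,
      Ideal.mk_ker, sup_eq_left.mpr hQP]
    exact hbot
  intro x hx
  exact Ideal.Quotient.eq_zero_iff_mem.mp ((Submodule.mem_bot _).mp
    (Ideal.eq_bot_of_comap_eq_bot hcomap ▸ Ideal.mem_map_of_mem _ hx))

include hη h2 hη0 in
/-- **Every point of the relations lies on every prime of full dimension containing them.** -/
theorem ev_eq_zero_of_specialPrime (hφinj : Function.Injective φ)
    (hφ : ∀ c ∈ maximalIdeal O, ‖(φ c : K)‖ < 1) (hηm : ∀ v, η v ∈ maximalIdeal O)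
    {P : Ideal (MvPowerSeries (Coord V ρ) O)} [P.IsPrime] (hrel : specialRel η ≤ P)
    (hdim : ((Nat.card (V × Fin 3 ⊕ ρ) + 1 : ℕ) : WithBot ℕ∞) ≤
      ringKrullDim (MvPowerSeries (Coord V ρ) O ⧸ P))
    {f : MvPowerSeries (Coord V ρ) O} (hf : f ∈ P) (x : Coord V ρ → ball1 K)
    (hx : ∀ c, ‖(x c : K)‖ < 1) (h : ∀ r ∈ specialRel η, ev φ x hx r = 0) : ev φ x hx f = 0 :=
  ev_eq_zero_of_mem_specialGerm hη h2 hη0
    (eq_specialGerm hη h2 hη0 hφinj hφ hηm hrel hdim ▸ hf) x hx
    (isSpecialPoint_of_forall η φ h)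

end Full

end Fermat.Agent.RT.Germ
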